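/-
Conditional wiring for S03 (`no Frey package`):
S03 follows from S04 (modularity of the Frey curve), S09 (Mazur irreducibility),
S45 (Ribet: modular + irreducible gives a nonzero weight-2 cusp form on Gamma0(2))
and S07 (no nonzero weight-2 cusp form on Gamma0(2)).
All four inputs are taken as hypotheses here, with exactly the frozen types.
-/
import Mathlib
import Fermat.Prelude.Def_FLTPrelim_FreyPackage
import Fermat.Prelude.Def_FLTPrelim_GaloisRep
import Fermat.Prelude.Def_FLTPrelim_Modularity
import Fermat.Prelude.Def_FLTPrelim_ModularRep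
import Fermat.Prelude.Def_FLTPrelim_Ramification
import Fermat.Prelude.Def_FLTPrelim_CofixedLine

set_option autoImplicit false
open WeierstrassCurve WeierstrassCurve.Affine WeierstrassCurve.Affine.Point
open CuspForm ModularFormClass UpperHalfPlane

namespace Fermat.Agent.Wiring

/-- S03 from S04 + S09 + S45 + S07, each supplied as a hypothesis of the frozen shape. -/
theorem no_frey_package_of
    (h04 : ∀ P : FreyPackage, P.freyCurve.IsModular)
    (h09 : ∀ P : FreyPackage,
      GaloisRepIsIrreducible (K := AlgebraicClosure ℚ) ℚ P.freyCurve P.p)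
    (h45 : ∀ P : FreyPackage, P.freyCurve.IsModular →
      GaloisRepIsIrreducible (K := AlgebraicClosure ℚ) ℚ P.freyCurve P.p →
      ∃ f : CuspForm (CongruenceSubgroup.Gamma0 2) 2, f ≠ 0)
    (h07 : ∀ f : CuspForm (CongruenceSubgroup.Gamma0 2) 2, f = 0)
    (P : FreyPackage) : False := by
  obtain ⟨f, hf⟩ := h45 P (h04 P) (h09 P)
  exact hf (h07 f)

/-- S01 from S02 + S03 (both as hypotheses of the frozen shape) and Mathlib's exponents 3 and 4. -/
theorem flt_of
    (h02 : ∀ (a b c : ℤ), a ≠ 0 → b ≠ 0 → c ≠ 0 → ∀ p : ℕ, p.Prime → 5 ≤ p →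
      a ^ p + b ^ p = c ^ p → Nonempty FreyPackage)
    (h03 : FreyPackage → False)
    (n : ℕ) (hn : 3 ≤ n) (a b c : ℕ) (ha : 0 < a) (hb : 0 < b) (hc : 0 < c) :
    a ^ n + b ^ n ≠ c ^ n := by
  have hprime : ∀ p : ℕ, p.Prime → Odd p → FermatLastTheoremFor p := by
    intro p pp hodd
    rcases Nat.lt_or_ge p 5 with hlt | hge
    · have h3 : p = 3 := by
        have h2 := pp.two_le
        interval_cases p
        · exact absurd hodd (by decide)
        · rfl
        · exact absurd pp (by decide)
      subst h3
      exact fermatLastTheoremThree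
    · rw [fermatLastTheoremFor_iff_int]
      intro x y z hx hy hz H
      obtain ⟨P⟩ := h02 x y z hx hy hz p pp hge H
      exact h03 P
  have hall : FermatLastTheorem :=
    FermatLastTheorem.of_odd_primes hprime
  exact hall n hn a b c ha.ne' hb.ne' hc.ne'

end Fermat.Agent.Wiring
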