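/-
Second conditional wiring for S03 (`no Frey package`), bypassing S04 and S45:
S03 follows from S06 (mod-p rep modular of a conductor level), S09 (Mazur irreducibility),
S05 (unramified outside 2p), S43 (Ribet, Frey form), S44 (Mazur--Ribet, Frey form),
S07 and S08 (no weight-2 cusp forms of level 2 and 1).
All inputs are hypotheses of exactly the frozen shapes.
-/
import Mathlib
import Fermat.Prelude.Def_FLTPrelim_FreyPackage
import Fermat.Prelude.Def_FLTPrelim_GaloisRep
import Fermat.Prelude.Def_FLTPrelim_Modularity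
import Fermat.Prelude.Def_FLTPrelim_ModularRep
import Fermat.Prelude.Def_FLTPrelim_Ramification
import Fermat.Prelude.Def_FLTPrelim_CofixedLine
import Fermat.Prelude.Def_FreyPackage_IsConductorLevel

set_option autoImplicit false
open WeierstrassCurve WeierstrassCurve.Affine WeierstrassCurve.Affine.Point
open CuspForm ModularFormClass UpperHalfPlane

namespace Fermat.Agent.Wiring

/-- Level lowering loop: from a conductor level down to a divisor of `2`. -/
theorem no_modularRepOfLevel_of
    (P : FreyPackage)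
    (hirr : GaloisRepIsIrreducible (K := AlgebraicClosure ℚ) ℚ P.freyCurve P.p)
    (h05 : ∀ {q : ℕ}, q.Prime → q ≠ 2 → q ≠ P.p → P.GaloisRepUnramifiedAt q)
    (h43 : ∀ {N q : ℕ}, P.IsConductorLevel N → q.Prime → q ≠ 2 → q ≠ P.p → q ∣ N →
      GaloisRepIsIrreducible (K := AlgebraicClosure ℚ) ℚ P.freyCurve P.p →
      P.ModularRepOfLevel N → P.GaloisRepUnramifiedAt q →
      ∃ M : ℕ, M ∣ N ∧ ¬ q ∣ M ∧ P.ModularRepOfLevel M)
    (h44 : ∀ {N : ℕ}, P.IsConductorLevel N → P.p ∣ N →
      GaloisRepIsIrreducible (K := AlgebraicClosure ℚ) ℚ P.freyCurve P.p →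
      P.ModularRepOfLevel N →
      ∃ M : ℕ, M ∣ N ∧ ¬ P.p ∣ M ∧ P.ModularRepOfLevel M)
    (h07 : ∀ f : CuspForm (CongruenceSubgroup.Gamma0 2) 2, f = 0)
    (h08 : ∀ f : CuspForm (CongruenceSubgroup.Gamma0 1) 2, f = 0) :
    ∀ N : ℕ, P.IsConductorLevel N → P.ModularRepOfLevel N → False := by
  intro N
  induction N using Nat.strong_induction_on with
  | _ N ih =>
    intro hcond hmod
    have hNpos : 0 < N := hcond.pos
    -- helper: a proper divisor step
    have step : ∀ (q : ℕ), q ∣ N → (∃ M : ℕ, M ∣ N ∧ ¬ q ∣ M ∧ P.ModularRepOfLevel M) → False := by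
      rintro q hqN ⟨M, hMN, hqM, hM⟩
      have hMpos : 0 < M := Nat.pos_of_dvd_of_pos hMN hNpos
      have hMne : M ≠ N := fun h => hqM (h ▸ hqN)
      have hMlt : M < N := lt_of_le_of_ne (Nat.le_of_dvd hNpos hMN) hMne
      exact ih M hMlt (hcond.of_dvd hMN hMpos) hM
    by_cases hodd : ∃ q : ℕ, q.Prime ∧ q ≠ 2 ∧ q ≠ P.p ∧ q ∣ N
    · obtain ⟨q, hq, hq2, hqp, hqN⟩ := hodd
      exact step q hqN (h43 hcond hq hq2 hqp hqN hirr hmod (h05 hq hq2 hqp))
    · by_cases hpN : P.p ∣ N
      · exact step P.p hpN (h44 hcond hpN hirr hmod)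
      · -- every prime factor of N is 2, and N is squarefree: N ∣ 2
        have hfac : ∀ q : ℕ, q.Prime → q ∣ N → q = 2 := by
          intro q hq hqN
          by_contra hq2
          have hqp : q ≠ P.p := fun h => hpN (h ▸ hqN)
          exact hodd ⟨q, hq, hq2, hqp, hqN⟩
        have hN2 : N ∣ 2 := by
          have hsq := hcond.squarefree
          by_cases h1 : N = 1
          · rw [h1]; exact one_dvd _
          · obtain ⟨q, hq, hqN⟩ := Nat.exists_prime_and_dvd h1
            have hq2 := hfac q hq hqN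
            subst hq2
            obtain ⟨k, rfl⟩ := hqN
            -- 2 ∤ k by squarefreeness, and k has no other prime factor, so k = 1
            have hk1 : k = 1 := by
              by_contra hk
              obtain ⟨r, hr, hrk⟩ := Nat.exists_prime_and_dvd hk
              have hr2 := hfac r hr (Dvd.dvd.mul_left hrk 2)
              subst hr2
              have h4 : 2 * 2 ∣ 2 * k := Nat.mul_dvd_mul_left 2 hrk
              have := hsq 2 h4
              exact absurd this (by decide)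
            rw [hk1]
        obtain ⟨f, W, 𝔪, hf, -⟩ := hmod
        have hN12 : N = 1 ∨ N = 2 := (Nat.dvd_prime Nat.prime_two).mp hN2
        rcases hN12 with rfl | rfl
        · exact hf.ne_zero (h08 f)
        · exact hf.ne_zero (h07 f)

/-- S03 from S06 + S09 + S05 + S43 + S44 + S07 + S08 (no S04, no S45). -/
theorem no_frey_package_of'
    (h06 : ∀ P : FreyPackage, ∃ N : ℕ, P.IsConductorLevel N ∧ P.ModularRepOfLevel N)
    (h09 : ∀ P : FreyPackage,
      GaloisRepIsIrreducible (K := AlgebraicClosure ℚ) ℚ P.freyCurve P.p)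
    (h05 : ∀ (P : FreyPackage) {q : ℕ}, q.Prime → q ≠ 2 → q ≠ P.p → P.GaloisRepUnramifiedAt q)
    (h43 : ∀ (P : FreyPackage) {N q : ℕ}, P.IsConductorLevel N → q.Prime → q ≠ 2 → q ≠ P.p →
      q ∣ N → GaloisRepIsIrreducible (K := AlgebraicClosure ℚ) ℚ P.freyCurve P.p →
      P.ModularRepOfLevel N → P.GaloisRepUnramifiedAt q →
      ∃ M : ℕ, M ∣ N ∧ ¬ q ∣ M ∧ P.ModularRepOfLevel M)
    (h44 : ∀ (P : FreyPackage) {N : ℕ}, P.IsConductorLevel N → P.p ∣ N →
      GaloisRepIsIrreducible (K := AlgebraicClosure ℚ) ℚ P.freyCurve P.p →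
      P.ModularRepOfLevel N →
      ∃ M : ℕ, M ∣ N ∧ ¬ P.p ∣ M ∧ P.ModularRepOfLevel M)
    (h07 : ∀ f : CuspForm (CongruenceSubgroup.Gamma0 2) 2, f = 0)
    (h08 : ∀ f : CuspForm (CongruenceSubgroup.Gamma0 1) 2, f = 0)
    (P : FreyPackage) : False := by
  obtain ⟨N, hcond, hmod⟩ := h06 P
  exact no_modularRepOfLevel_of P (h09 P) (h05 P) (h43 P) (h44 P) h07 h08 N hcond hmod

end Fermat.Agent.Wiring
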